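import Fermat.Agent.S17.H500.Package

/-!
# S17 / tower H / formal leaf F-KEY (helper512)

`key (P : PairingPackage A) : P.KeyStatement` — the self-pairing formula
`N D - δ D = -B(D,D₁)/2 - K D/2 + (1 - d/m) N D + O(1)` for good disjoint representatives
`D, D₁` of degree `d` of the same class.

Proof (sketch of `coord/S17-HSkel.md`): `mov2` for `D, D₁` with `T := D + D₁` gives hyperplane
sections `Z a = D + R`, `Z a₁ = D₁ + R`, `R` disjoint from `D + D₁`.  Then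
`adj (a, D, R)`: `2 δ D - K D + pr R D = d · ht a + N D + O(d)`,
`e3 (a₁, E := D)`: `pr D₁ D + pr R D = d · ht a₁ + N D + O(d)`,
`bez`: `m (ht a - ht a₁) = N D - N D₁ + O(1)`.  Subtract.
-/

set_option autoImplicit false

namespace Fermat.Agent.S17.H512

open Fermat.Agent.S17.H500

variable {A : Type} [AddCommGroup A]

/-- **F-KEY**: the self-pairing formula. -/
theorem key (P : PairingPackage A) : P.KeyStatement := by
  obtain ⟨Ca, hadj⟩ := P.adj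
  obtain ⟨Ce, he3⟩ := P.e3
  obtain ⟨Cb, hbez⟩ := P.bez
  have hmpos : (0 : ℝ) < P.m := by
    have h1 := P.one_le_g
    have h2 := P.four_d_le_m
    have h3 : 0 < P.m := by omega
    exact_mod_cast h3
  have hm0 : (P.m : ℝ) ≠ 0 := hmpos.ne'
  have hr0 : (0 : ℝ) ≤ (P.d : ℝ) / P.m := div_nonneg (Nat.cast_nonneg _) hmpos.le
  refine ⟨(Ca * P.d + Ce * P.d + 2 * ((P.d : ℝ) / P.m) * Cb) / 2, ?_⟩
  intro D D₁ hD hD₁ hcls hG _hG₁ hdisj
  have hdeg : P.deg D = P.deg D₁ := by rw [hD, hD₁]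
  have hle : P.deg D + 2 * P.g ≤ P.m := by
    have := P.four_d_le_m
    omega
  obtain ⟨R, a, a₁, hZa, hZa₁, hRT⟩ := P.mov2 D D₁ hdeg hle hcls (D + D₁)
  have hT : P.Disj D R ∧ P.Disj D₁ R := (P.disj_add_left D D₁ R).mp (P.disj_symm _ _ hRT)
  have hDR : P.Disj D R := hT.1
  have hRD : P.Disj R D := P.disj_symm _ _ hDR
  have hD₁D : P.Disj D₁ D := P.disj_symm _ _ hdisj
  have hD₁RD : P.Disj (D₁ + R) D := (P.disj_add_left D₁ R D).mpr ⟨hD₁D, hRD⟩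
  have hZa₁D : P.Disj (P.Z a₁) D := by rw [hZa₁]; exact hD₁RD
  -- the four estimates
  have h1 := hadj a D R hG hZa hDR
  have h2 := he3 a₁ D hZa₁D
  have hpr : P.pr (P.Z a₁) D = P.pr D D₁ + P.pr R D := by
    rw [hZa₁, P.pr_add D₁ R D hD₁RD, P.pr_symm D₁ D]
  have hb := hbez a
  have hb₁ := hbez a₁
  have hN : P.N (P.Z a) = P.N D + P.N R := by rw [hZa, P.N_add]
  have hN₁ : P.N (P.Z a₁) = P.N D₁ + P.N R := by rw [hZa₁, P.N_add]
  rw [hpr, hD] at h2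
  rw [hD] at h1
  rw [hN] at hb
  rw [hN₁] at hb₁
  -- scale the Bezout estimates by `d / m`
  have hrm : (P.d : ℝ) / P.m * P.m = P.d := div_mul_cancel₀ _ hm0
  rw [abs_le] at h1 h2 hb hb₁
  have hb' : (P.d : ℝ) / P.m * (P.N D + P.N R - P.m * P.ht a) ≤ (P.d : ℝ) / P.m * Cb :=
    mul_le_mul_of_nonneg_left hb.2 hr0
  have hb'' : (P.d : ℝ) / P.m * (-Cb) ≤ (P.d : ℝ) / P.m * (P.N D + P.N R - P.m * P.ht a) :=
    mul_le_mul_of_nonneg_left hb.1 hr0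
  have hb₁' : (P.d : ℝ) / P.m * (P.N D₁ + P.N R - P.m * P.ht a₁) ≤ (P.d : ℝ) / P.m * Cb :=
    mul_le_mul_of_nonneg_left hb₁.2 hr0
  have hb₁'' : (P.d : ℝ) / P.m * (-Cb) ≤
      (P.d : ℝ) / P.m * (P.N D₁ + P.N R - P.m * P.ht a₁) :=
    mul_le_mul_of_nonneg_left hb₁.1 hr0
  have e : ∀ x y : ℝ, (P.d : ℝ) / P.m * (x - P.m * y) = (P.d : ℝ) / P.m * x - P.d * y := by
    intro x y
    rw [mul_sub, ← mul_assoc, hrm]
  rw [e] at hb' hb'' hb₁' hb₁''
  -- unfold `B`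
  have hB : P.B D D₁ = P.pr D D₁ - (P.d : ℝ) / P.m * P.N D₁ - (P.d : ℝ) / P.m * P.N D := by
    rw [PairingPackage.B, hD, hD₁]
  rw [hB, abs_le]
  constructor <;> linarith [h1.1, h1.2, h2.1, h2.2]

end Fermat.Agent.S17.H512
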